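/-
S43lib / B0 / Toric / Gen / Ctx  (helper6)  — Project H, block B0 (Mazur's principle), the prime `r = 3`.

THE CONCRETE NODAL PACKAGE FROM A NODAL CONTEXT.

`S44lib/Kap/ModInst.lean` builds `modCtx`, `modNRed`, `modSym`, `modLiftCtx` at level `M q` for `q ≥ 5`;
the hypothesis `5 ≤ q` enters only through the node count of `modCtx`.  Here the same objects are built
from an ARBITRARY nodal context `C : NodalCtx (Kap.modNod hqM hA) (modG M q) (modGk hqM hA) (modGk hqM hA)`
— available at every good pair `(M, q)` (`LSc.Inst.count_goodPair`: `q ≥ 5`, or `q = 3 ∧ 4 ∣ M`,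
or `q = 2 ∧ 9 ∣ M`), see `modCtxG`.

* `modCtxG hqM hA hgood`  : the nodal context at a good pair;
* `modNRedC`, `modInertialC`, `modRSmulC`, `modSymC`, `modLiftCtxC` : as in `Kap/ModInst`, from `C`.
-/
import Fermat.Agent.S44lib.Kap.ModInst
import Fermat.Agent.LSc.Inst.Package

set_option autoImplicit false
set_option linter.unusedSectionVars false
set_option linter.style.haveILetI false

noncomputable section

namespace Fermat.Agent.S43lib.B0.Gen

open AlgebraicCurve ModularCurve Fermat.Agent.S18lib Fermat.Agent.LSb Fermat.Agent.S37lib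
open Fermat.Agent.S29lib.GH Fermat.Agent.S33lib Fermat.Agent.S33lib.N Fermat.Agent.S33lib.NInst
open Fermat.Agent.S19lib Fermat.Agent.S44lib Fermat.Agent.S44lib.Kap

local notation "Qb" => AlgebraicClosure ℚ
local notation "GQ" => (AlgebraicClosure ℚ ≃ₐ[ℚ] AlgebraicClosure ℚ)

variable {M q : ℕ} [NeZero M] [NeZero q] [hq : Fact q.Prime] {A : ValuationSubring Qb}

variable (hqM : ¬ q ∣ M) (hA : A.LiesOverPrime q)

/-- **the nodal context of the modular datum at a good pair** -/
theorem modCtxG (hgood : GoodPair M q) :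
    NodalCtx (modNod hqM hA) (modG M q) (modGk hqM hA) (modGk hqM hA) :=
  haveI := modHpdK hqM hA
  Unit.modNodalCtx' hqM hA (modD1_isGaussOne hqM hA) (modG_spec M q) (modGk_spec hqM hA)
    (LSc.Inst.count_goodPair hqM hA hgood (modG_spec M q) (modGk_spec hqM hA))

variable (C : NodalCtx (modNod hqM hA) (modG M q) (modGk hqM hA) (modGk hqM hA))

/-- **the modular nodal reduction datum** of a nodal context -/
def modNRedC :
    letI := modHpdK hqM hA
    N.NRedDatum A (FBar (M * q)) (FRes A M) (FRes A M) :=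
  letI := modHpdK hqM hA
  haveI := modInfinite (A := A)
  NRed.toNRedDatum C.toNCtx

theorem modNRedC_nod : (modNRedC hqM hA C).nod = modNod hqM hA := rfl

theorem modInertialC : ∀ σ ∈ IAq A, (modNod hqM hA).IsInertial (galAutBar (M * q) σ) :=
  fun σ hσ =>
    letI := modHpdK hqM hA
    Unit.modDatum_isInertial hqM hA (modD1_isGaussOne hqM hA)
      (fun _ hx => Val.gaussOne_O_le M q A hqM hA hx) σ hσ

theorem modRSmulC : ∀ σ ∈ IAq A, ∀ P : Place Qb (FBar (M * q)),
    (modNRedC hqM hA C).r (galAutBar (M * q) σ • P) = (modNRedC hqM hA C).r P :=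
  fun σ hσ P =>
    letI := modHpdK hqM hA
    haveI := modInfinite (A := A)
    NRed.toNRedDatum_r_smul C (modInertialC hqM hA σ hσ) P

/-- the inertia symmetries -/
def modSymC :
    letI := modHpdK hqM hA
    N.NSym (modNRedC hqM hA C) ↥(IAq A) :=
  letI := modHpdK hqM hA
  nSymOf (modNRedC hqM hA C) (modInertialC hqM hA) (modRSmulC hqM hA C)

/-- the lifting context -/
theorem modLiftCtxC :
    letI := modHpdK hqM hA
    N.NLiftCtx (modNRedC hqM hA C) (modSymC hqM hA C) (modG M q) (modGk hqM hA)
      (modGk hqM hA) :=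
  letI := modHpdK hqM hA
  haveI := modInfinite (A := A)
  { ctx := C
    infinite_k := inferInstance
    lifts := nSymOf_hasFixedLifts hqM hA (modNRedC hqM hA C) (modInertialC hqM hA)
      (modRSmulC hqM hA C) (modD1_isGaussOne hqM hA) (modD2'_isGaussTwo hqM hA) (modG_spec M q)
    frame := ⟨nFrameOf C _ fun h =>
      ⟨(modInertialC hqM hA h.1 h.2).smul_P₁, (modInertialC hqM hA h.1 h.2).smul_P₂⟩⟩ }

end Fermat.Agent.S43lib.B0.Gen
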