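/-
S43lib / B0 / Toric / Gen / Coord  (helper6)  — Project H, block B0 (Mazur's principle), the prime `r = 3`.

THE UNIFORM COORDINATE AND THE ANNULUS DATUM FROM A NODAL CONTEXT + `a_c = 12`.

`S44lib/H4/{RegNode,ModCoord,ModCoordZ}.lean` and `S44lib/M/ModInst.lean` (helper4, helper7) build the uniform
coordinate and the annulus datum of the modular nodal package at level `M q` for `q ≥ 5`, `M` elliptic-free;
`5 ≤ q` enters only through (i) the nodal context `Kap.modCtx` and (ii) `ord_{x_i c} H₂ = 12`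
(`S36lib.Count.ord_H₂_modX_five_le`).  Here both are hypotheses (`C`, `hord12`), so that the results apply
to `q = 3`, `4 ∣ M` (`S36lib.Count.ord_H₂_modX_three`).

* `mod_reg_nodeC`, `mod_reg_nodeC'` : the second side of a node coordinate;
* `rOf_ne_none_of_poleC`, `unifCoord_of_isKronLikeC`, `exists_unifCoordC`;
* `modAnnC` : the annulus datum.
-/
import Fermat.Agent.S43lib.B0.Toric.Gen.Ctx
import Fermat.Agent.S44lib.H4.ModCoordZ
import Fermat.Agent.S44lib.M.ModInst

set_option autoImplicit false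
set_option linter.unusedSectionVars false
set_option linter.style.haveILetI false

noncomputable section

namespace Fermat.Agent.S43lib.B0.Gen

open AlgebraicCurve ModularCurve
open Fermat.Agent.S18lib Fermat.Agent.ProgramR Fermat.Agent.LSb Fermat.Agent.LSb.Unit
open Fermat.Agent.S33lib Fermat.Agent.S33lib.NRed Fermat.Agent.S29lib.GH
open Fermat.Agent.S44lib Fermat.Agent.S44lib.H4

local notation "Qb" => AlgebraicClosure ℚ

variable {M q : ℕ} [NeZero M] [NeZero q] [hq : Fact q.Prime]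
variable {A : ValuationSubring (AlgebraicClosure ℚ)}

local notation "kA" => IsLocalRing.ResidueField A

section Modular

variable [HasPrincipalDivisors (AlgebraicClosure ℚ) (FBar M)]
variable [HasPrincipalDivisors (AlgebraicClosure ℚ) (FBar (M * q))]
variable [HasPrincipalDivisors (IsLocalRing.ResidueField A) (FRes A M)]

variable (hqM : ¬ q ∣ M) (hA : A.LiesOverPrime q)
variable {D1 D2 : GaussDatum A (FBar (M * q)) (FRes A M)}
variable (h1 : Old.IsGaussOne D1) (h2 : Old.IsGaussTwo D1 D2 (wqR M q hqM))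

include hqM h1 h2 in
/-- `H4.mod_reg_node` with `a_c = 12` as a hypothesis -/
theorem mod_reg_nodeC {gM : ℕ}
    (hFk : IsCurveOfGenus kA (FRes A M) gM) {z : FBar (M * q)}
    (hzreg : z ∈ regAway Qb (Gin0.jF (M * q))) (hz₁ : D1.redF z ≠ 0)
    (hz₂ : (algebraMap Qb (FBar (M * q)) (q : Qb))⁻¹ * z ∈ D2.O) (c : Fin (modS D1))
    (hord12 : (modX₁ hA D1 c).ord (H₂ D1) = 12 ∧ (modX₂ D1 c).ord (H₂ D1) = 12)
    (hord : (modX₁ hA D1 c).ord (D1.redF z) = 1) :
    D2.redF ((algebraMap Qb (FBar (M * q)) (q : Qb))⁻¹ * z) ≠ 0 ∧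
      (modX₂ D1 c).ord (D2.redF ((algebraMap Qb (FBar (M * q)) (q : Qb))⁻¹ * z)) = -1 := by
  have hq0 : (q : Qb) ≠ 0 := by exact_mod_cast hq.out.ne_zero
  refine reg_two D1 D2 (modX₁ hA D1 c) (modX₂ D1 c) hq0 (m := 12) (by norm_num)
    (E := X0F (M * q) q (dvd_level M q)) (E' := Yw M q hqM)
    (S36lib.Reg.X0F_mul_Yw M q hqM) (H₂_ne_zero h1) ?_ ?_ ?_ hz₁ hord hz₂ ?_
  · exact_mod_cast hord12.1
  · rw [redF₂_Yw hqM h2]
    exact H₂_ne_zero h1
  · rw [redF₂_Yw hqM h2]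
    exact_mod_cast hord12.2
  · intro hR₁ hR₂
    refine S36lib.J.mod_glue_regAway hqM hA h1 h2 hFk ?_ hR₁ hR₂ c
    exact (regAway Qb (Gin0.jF (M * q))).mul_mem ((regAway Qb (Gin0.jF (M * q))).pow_mem hzreg 12)
      (X0F_inv_mem_regAway (M * q) q (dvd_level M q))

include hqM h1 h2 in
/-- `H4.mod_reg_node'` with `a_c = 12` as a hypothesis -/
theorem mod_reg_nodeC' {gM : ℕ}
    (hFk : IsCurveOfGenus kA (FRes A M) gM) {z : FBar (M * q)}
    (hzreg : z ∈ regAway Qb (Gin0.jF (M * q))) (hz₁ : D1.redF z ≠ 0)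
    (hz₂ : (algebraMap Qb (FBar (M * q)) (q : Qb))⁻¹ * z ∈ D2.O) (c : Fin (modS D1))
    (hord12 : (modX₁ hA D1 c).ord (H₂ D1) = 12 ∧ (modX₂ D1 c).ord (H₂ D1) = 12)
    (hord : (modX₁ hA D1 c).ord (D1.redF z) = 1) :
    algebraMap Qb (FBar (M * q)) (q : Qb) * z⁻¹ ∈ D2.O ∧
      D2.redF (algebraMap Qb (FBar (M * q)) (q : Qb) * z⁻¹) ≠ 0 ∧
      (modX₂ D1 c).ord (D2.redF (algebraMap Qb (FBar (M * q)) (q : Qb) * z⁻¹)) = 1 := by
  obtain ⟨hw, ho⟩ := mod_reg_nodeC hqM hA h1 h2 hFk hzreg hz₁ hz₂ c hord12 hord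
  have e : algebraMap Qb (FBar (M * q)) (q : Qb) * z⁻¹ =
      ((algebraMap Qb (FBar (M * q)) (q : Qb))⁻¹ * z)⁻¹ := by
    rw [mul_inv, inv_inv]
  rw [e]
  refine ⟨D2.inv_mem_of_redF_ne_zero hw, ?_, ?_⟩
  · rw [D2.redF_inv hw]
    exact inv_ne_zero hw
  · rw [D2.redF_inv hw, (modX₂ D1 c).ord_inv, ho]
    rfl

end Modular

variable (hqM : ¬ q ∣ M) (hA : A.LiesOverPrime q)
variable (C : NodalCtx (Kap.modNod hqM hA) (Kap.modG M q) (Kap.modGk hqM hA) (Kap.modGk hqM hA))

include C in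
/-- a pole of a function regular off the cusps reduces to a smooth point -/
theorem rOf_ne_none_of_poleC {z : FBar (M * q)} (hz : z ∈ regAway Qb (Gin0.jF (M * q)))
    {P : Place Qb (FBar (M * q))} (hP : P.ord z < 0) : modRPlace hqM hA P ≠ none := by
  letI := Kap.modHpdK hqM hA
  haveI := Kap.modInfinite (A := A)
  have hC := C.toNCtx
  have hj : Gin0.jF (M * q) ∉ P.toValuationSubring := by
    intro hmem
    have := hz P hmem
    exact absurd ((Tame.ord_neg_iff_not_mem P).1 hP) (not_not.2 this)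
  have hjord : P.ord (Gin0.jF (M * q)) < 0 := (Tame.ord_neg_iff_not_mem P).2 hj
  have hY : ((Kap.modNod hqM hA).chartDiv 1 1) P ≠ 0 := by
    have h1 : (Kap.modNod hqM hA).P₁ P = max (-P.ord (Gin0.jF (M * q))) 0 := polesOf_apply _ P
    have h2 : 0 ≤ (Kap.modNod hqM hA).P₂ P := by
      have e : (Kap.modNod hqM hA).P₂ P = max (P.ord (Gin0.jF (M * q) -
          algebraMap Qb (FBar (M * q)) ((c0 hA (Kap.modD1 hqM hA) : A) : Qb))) 0 :=
        zerosOf_apply _ P
      rw [e]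
      exact le_max_right _ _
    rw [NodalDatum.chartDiv, one_smul, one_smul, Finsupp.add_apply, h1, max_eq_left (by omega)]
    omega
  rw [modRPlace, Ne, rOf_eq_none_iff, not_not]
  exact smoothRed_of_Y_ne_zero hC hY

theorem modRPlace_eqC : modRPlace hqM hA = (modNRedC hqM hA C).r := rfl

variable (hord12 : ∀ c : Fin (modS (Kap.modD1 hqM hA)),
  (modX₁ hA (Kap.modD1 hqM hA) c).ord (H₂ (Kap.modD1 hqM hA)) = 12 ∧
    (modX₂ (Kap.modD1 hqM hA) c).ord (H₂ (Kap.modD1 hqM hA)) = 12)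

include C hord12 in
/-- **the uniform coordinate of the modular nodal package** from an `IsKronLike` function whose first
reduction has a simple zero at every node point `x₁ c` -/
theorem unifCoord_of_isKronLikeC {z : FBar (M * q)}
    (hz : IsKronLike (Kap.modD1 hqM hA) (Kap.modD2' hqM hA) z)
    (hord : ∀ c : Fin (modS (Kap.modD1 hqM hA)),
      (modX₁ hA (Kap.modD1 hqM hA) c).ord ((Kap.modD1 hqM hA).redF z) = 1) :
    Ann.UnifCoord (Kap.modNod hqM hA) (modRPlace hqM hA) ((q : ℕ) : Qb) z := by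
  letI := Kap.modHpdK hqM hA
  haveI : HasPrincipalDivisors Qb (FBar M) :=
    (Gin0.exists_isCurveOfGenus_FBar M).choose_spec.1.hasPrincipalDivisors
  have h1 := Kap.modD1_isGaussOne hqM hA
  have h2 := Kap.modD2'_isGaussTwo hqM hA
  have hFk := Kap.modGk_spec hqM hA
  have hq0 : ((q : ℕ) : Qb) ≠ 0 := by exact_mod_cast hq.out.ne_zero
  have hs : 0 < modS (Kap.modD1 hqM hA) := modS_pos hA h1 hFk
  have hne : (Kap.modD1 hqM hA).redF z ≠ 0 := by
    intro h0
    have := hord ⟨0, hs⟩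
    rw [h0, Place.ord_zero] at this
    exact zero_ne_one this
  refine
    { pi_ne_zero := hq0
      pi_lt_one := (A.mem_nonunits_iff).mp hA
      z_pole := fun P hP => rOf_ne_none_of_poleC hqM hA C hz.reg hP
      z_red₁ := hne
      z_ord₁ := hord
      z'_red₂ := ?_
      z'_ord₂ := ?_ }
  · exact (mod_reg_nodeC' hqM hA h1 h2 hFk hz.reg hne hz.div_mem₂ ⟨0, hs⟩ (hord12 _)
      (hord ⟨0, hs⟩)).2.1
  · intro c
    exact (mod_reg_nodeC' hqM hA h1 h2 hFk hz.reg hne hz.div_mem₂ c (hord12 c) (hord c)).2.2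

include C hord12 in
/-- **EXISTENCE OF THE UNIFORM COORDINATE** of the concrete nodal package, from the lifting statement -/
theorem exists_unifCoordC
    (hK : KronLift hA (Kap.modD1 hqM hA) (Kap.modD2' hqM hA)) :
    ∃ z : FBar (M * q),
      Ann.UnifCoord (Kap.modNod hqM hA) (modNRedC hqM hA C).r ((q : ℕ) : Qb) z ∧
      IsKronLike (Kap.modD1 hqM hA) (Kap.modD2' hqM hA) z ∧
      ∀ σ ∈ A.inertiaSubgroupIn ℚ, galAutBar (M * q) σ • z = z := by
  letI := Kap.modHpdK hqM hA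
  haveI : HasPrincipalDivisors Qb (FBar M) :=
    (Gin0.exists_isCurveOfGenus_FBar M).choose_spec.1.hasPrincipalDivisors
  have h1 := Kap.modD1_isGaussOne hqM hA
  have h2 := Kap.modD2'_isGaussTwo hqM hA
  have hFk := Kap.modGk_spec hqM hA
  obtain ⟨u, hu, hord⟩ := exists_node_coordinate hqM hA h1 hFk
  obtain ⟨z, hz, hred, hfix⟩ := hK u hu
  have hordz : ∀ c : Fin (modS (Kap.modD1 hqM hA)),
      (modX₁ hA (Kap.modD1 hqM hA) c).ord ((Kap.modD1 hqM hA).redF z) = 1 := by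
    intro c
    rw [hred]
    refine ord_sub_VqR_VqR_eq_one hqM hA h1 h2 hFk c (v := 0) ?_
    rw [map_zero, sub_zero]
    exact hord c
  exact ⟨z, unifCoord_of_isKronLikeC hqM hA C hord12 hz hordz, hz, hfix⟩

/-- **the annulus datum of the modular nodal datum** and a uniform coordinate -/
def modAnnC {z : FBar (M * q)}
    (hz : Ann.UnifCoord (Kap.modNod hqM hA) (modNRedC hqM hA C).r ((q : ℕ) : Qb) z) :
    letI := Kap.modHpdK hqM hA
    Ann.AnnDatum A (FBar (M * q)) (FRes A M) (FRes A M) :=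
  letI := Kap.modHpdK hqM hA
  haveI := Kap.modInfinite (A := A)
  Ann.annOfNCtx C.toNCtx hz C S44lib.M.exists_sqrt_Qb

end Fermat.Agent.S43lib.B0.Gen
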