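/-
S43lib / B0 / Toric / Gen / Tame  (helper6)  — Project H, block B0 (Mazur's principle), the prime `r = 3`.

THE TAME `(M′)` FROM A NODAL CONTEXT + `a_c = 12`  (generalisation of `Toric/TameM`, `Toric/TameEis`).

Level `M q`, `q ∤ M`, `A ∣ q`, a nodal context `C` of the modular nodal datum and `ord_{x_i c} H₂ = 12` at
all nodes (true for `q ≥ 5`, `M` elliptic-free, and for `q = 3`, `4 ∣ M`):

* `mprime_mod_tameC`  : `cMap` form;
* `kapOrd_const_tameC`: the node orders of the reduction Kummer classes of an inertia-fixed `x ∈ J₀(M q)[m]`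
                        are constant on each component;
* **`resMap_psi_mem_eisSub_tameC`** : `resMap (Ψ x) ∈ eisSub` for a prime `m ∤ 12`;
* **`resMap_psi_mem_eisSub_three`** : the case `q = 3`, `4 ∣ M`.
-/
import Fermat.Agent.S43lib.B0.Toric.Gen.Coord
import Fermat.Agent.S43lib.B0.Toric.TameM

set_option autoImplicit false
set_option linter.unusedSectionVars false
set_option linter.style.haveILetI false

noncomputable section

namespace Fermat.Agent.S43lib.B0.Gen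

open Fermat.Agent.S18lib AlgebraicCurve ModularCurve Fermat.Agent.LSb
open Fermat.Agent.S33lib Fermat.Agent.S19lib Fermat.Agent.S44lib Fermat.Agent.S44lib.M
open Fermat.Agent.S33lib.N Fermat.Agent.S29lib.GH
open Fermat.Agent.LSb.Unit Fermat.Agent.LSb.Val Fermat.Agent.S44lib.Kap Fermat.Agent.S44lib.Q4

local notation "Qb" => AlgebraicClosure ℚ
local notation "GQ" => (AlgebraicClosure ℚ ≃ₐ[ℚ] AlgebraicClosure ℚ)

variable {M q : ℕ} [NeZero M] [NeZero q] [hq : Fact q.Prime] {A : ValuationSubring Qb}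
variable (hqM : ¬ q ∣ M) (hA : A.LiesOverPrime q)
variable (C : NodalCtx (Kap.modNod hqM hA) (Kap.modG M q) (Kap.modGk hqM hA) (Kap.modGk hqM hA))

local notation "kA" => IsLocalRing.ResidueField A

section Mod

variable {z : FBar (M * q)}
  (hz : Ann.UnifCoord (Kap.modNod hqM hA) (modNRedC hqM hA C).r ((q : ℕ) : Qb) z)

/-- **the tame `(M′)` for the concrete nodal package, in `cMap` form** -/
theorem mprime_mod_tameC (hzfix : ∀ σ ∈ IA A, galAutBar (M * q) σ • z = z)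
    (hann : ∀ σ ∈ IA A, ∀ P : Place Qb (FBar (M * q)),
      (modAnnC hqM hA C hz).ann (galAutBar (M * q) σ • P) = (modAnnC hqM hA C hz).ann P)
    {m : ℕ} (hm : m.Prime)
    {x : JZero (M * q)} (hx : x ∈ tors (M * q) (m : ℤ)) (hfix : ∀ σ ∈ IA A, σ • x = x)
    (c c' : Fin (modNRedC hqM hA C).nod.s) :
    Kap.cMap₁ (modNRedC hqM hA C) C m (Kap.torsOf hx) c
        = Kap.cMap₁ (modNRedC hqM hA C) C m (Kap.torsOf hx) c' ∧
      Kap.cMap₂ (modNRedC hqM hA C) C m (Kap.torsOf hx) c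
        = Kap.cMap₂ (modNRedC hqM hA C) C m (Kap.torsOf hx) c' := by
  letI := Kap.modHpdK hqM hA
  haveI := Kap.modInfinite (A := A)
  have hS : AnnSym (modAnnC hqM hA C hz) (modSymC hqM hA C) :=
    annSym_of_liftCtx (D := modAnnC hqM hA C hz) (S := modSymC hqM hA C)
      (modLiftCtxC hqM hA C)
      (fun g P => hann g.1 g.2 P) (fun g _ => hzfix g.1 g.2) (fun g _ => by
        show SemilinearAut.baseAut (galAutBar (M * q) (g : GQ)) ((q : ℕ) : Qb) = ((q : ℕ) : Qb)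
        exact map_natCast _ _)
  exact cMap_const_tame hm hq.out hA (modAnnC hqM hA C hz) C (modSymC hqM hA C) (fun _ => rfl)
    hS (Ann.annOfNCtx_slopeLaw _ hz _ _) (fun _ => rfl) hx hfix c c'

end Mod

variable (hord12 : ∀ c : Fin (modS (Kap.modD1 hqM hA)),
  (modX₁ hA (Kap.modD1 hqM hA) c).ord (H₂ (Kap.modD1 hqM hA)) = 12 ∧
    (modX₂ (Kap.modD1 hqM hA) c).ord (H₂ (Kap.modD1 hqM hA)) = 12)

include C hord12 in
/-- **the tame `(M′)` in constant form** -/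
theorem kapOrd_const_tameC {m : ℕ} (hm : m.Prime)
    {x : JZero (M * q)} (hx : x ∈ tors (M * q) (m : ℤ)) (hfix : ∀ σ ∈ IA A, σ • x = x) :
    (∀ c c', kapOrd (gaussOne M q A hqM hA) m (modX₁ hA (gaussOne M q A hqM hA) c) x =
        kapOrd (gaussOne M q A hqM hA) m (modX₁ hA (gaussOne M q A hqM hA) c') x) ∧
      (∀ c c', kapOrd (modD2 hqM (gaussOne M q A hqM hA)) m
          (modX₂ (gaussOne M q A hqM hA) c) x =
        kapOrd (modD2 hqM (gaussOne M q A hqM hA)) m (modX₂ (gaussOne M q A hqM hA) c') x) := by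
  letI := modHpdK hqM hA
  haveI := modInfinite (A := A)
  obtain ⟨z, hz, -, hzfix⟩ := exists_unifCoordC hqM hA C hord12
    (Lvl.kronLiftStmt_holds M q A hqM hA)
  have hann : ∀ σ ∈ IA A, ∀ P : Place Qb (FBar (M * q)),
      (modAnnC hqM hA C hz).ann (galAutBar (M * q) σ • P) = (modAnnC hqM hA C hz).ann P :=
    fun σ hσ P => Ann.annOfNCtx_ann_smul C hz S44lib.M.exists_sqrt_Qb
      (modInertialC hqM hA σ hσ) P
  exact ⟨fun c c' => (mprime_mod_tameC hqM hA C hz hzfix hann hm hx hfix c c').1,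
    fun c c' => (mprime_mod_tameC hqM hA C hz hzfix hann hm hx hfix c c').2⟩

include C hord12 in
/-- **THE TAME `(M′)`**, from a nodal context and `a_c = 12` -/
theorem resMap_psi_mem_eisSub_tameC {m : ℕ} [hm : Fact m.Prime] (h12 : ¬ m ∣ 12)
    {x : JZero (M * q)} (hx : x ∈ tors (M * q) (m : ℤ)) (hfix : ∀ σ ∈ IA A, σ • x = x) :
    resMap (modNod hqM hA) m (psi (modNod hqM hA) m x) ∈ eisSub (modNod hqM hA) m := by
  obtain ⟨h1, h2⟩ := kapOrd_const_tameC hqM hA C hord12 hm.out hx hfix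
  haveI := modHpdK hqM hA
  have hs : 0 < modS (Kap.modD1 hqM hA) :=
    modS_pos hA (modD1_isGaussOne hqM hA) (modGk_spec hqM hA)
  have h12u : IsUnit ((12 : ℕ) : ZMod m) := by
    rw [ZMod.isUnit_iff_coprime]
    exact ((Nat.Prime.coprime_iff_not_dvd hm.out).2 h12).symm
  obtain ⟨u, hu⟩ := h12u
  have hcast : ∀ a : ZMod m, (((a.val : ℕ) : ℤ) : ZMod m) = a := fun a => by
    rw [Int.cast_natCast, ZMod.natCast_zmod_val]
  set t₁ : ZMod m := kapOrd (gaussOne M q A hqM hA) m (modX₁ hA (gaussOne M q A hqM hA) ⟨0, hs⟩) x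
  set t₂ : ZMod m := kapOrd (modD2 hqM (gaussOne M q A hqM hA)) m
    (modX₂ (gaussOne M q A hqM hA) ⟨0, hs⟩) x
  have hinv : (↑u⁻¹ : ZMod m) * ((12 : ℕ) : ZMod m) = 1 := by
    rw [← hu]; exact Units.inv_mul u
  refine (mem_eisSub (D := modNod hqM hA) (m := m)).2
    ⟨⟨(((t₁ * ↑u⁻¹).val : ℕ) : ℤ), ?_⟩, ⟨(((t₂ * ↑u⁻¹).val : ℕ) : ℤ), ?_⟩⟩
  · funext c
    rw [Pi.smul_apply, zsmul_eq_mul, hcast]
    show t₁ * ↑u⁻¹ * ((((modX₁ hA (Kap.modD1 hqM hA) c).ord (H₂ (Kap.modD1 hqM hA)) : ℤ)) : ZMod m)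
      = kapOrd (gaussOne M q A hqM hA) m (modX₁ hA (gaussOne M q A hqM hA) c) x
    rw [(hord12 c).1, h1 c ⟨0, hs⟩, mul_assoc]
    have : ((12 : ℤ) : ZMod m) = ((12 : ℕ) : ZMod m) := by norm_cast
    rw [this, hinv, mul_one]
  · funext c
    rw [Pi.smul_apply, zsmul_eq_mul, hcast]
    show t₂ * ↑u⁻¹ * ((((modX₂ (Kap.modD1 hqM hA) c).ord (H₂ (Kap.modD1 hqM hA)) : ℤ)) : ZMod m)
      = kapOrd (modD2 hqM (gaussOne M q A hqM hA)) m (modX₂ (gaussOne M q A hqM hA) c) x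
    rw [(hord12 c).2, h2 c ⟨0, hs⟩, mul_assoc]
    have : ((12 : ℤ) : ZMod m) = ((12 : ℕ) : ZMod m) := by norm_cast
    rw [this, hinv, mul_one]

omit C in
/-- `a_c = 12` at a good pair with `q = 3` -/
theorem ord12_three (hq3 : q = 3) (h4 : 4 ∣ M) :
    ∀ c : Fin (modS (Kap.modD1 hqM hA)),
      (modX₁ hA (Kap.modD1 hqM hA) c).ord (H₂ (Kap.modD1 hqM hA)) = 12 ∧
        (modX₂ (Kap.modD1 hqM hA) c).ord (H₂ (Kap.modD1 hqM hA)) = 12 := by
  subst hq3
  exact S36lib.Count.ord_H₂_modX_three h4 hqM hA (modD1_isGaussOne hqM hA)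

omit C in
/-- `a_c = 12` for `q ≥ 5` at the elliptic-free levels -/
theorem ord12_five_le (h5 : 5 ≤ q) (hν2 : nuTwo M = 0) (hν3 : nuThree M = 0) :
    ∀ c : Fin (modS (Kap.modD1 hqM hA)),
      (modX₁ hA (Kap.modD1 hqM hA) c).ord (H₂ (Kap.modD1 hqM hA)) = 12 ∧
        (modX₂ (Kap.modD1 hqM hA) c).ord (H₂ (Kap.modD1 hqM hA)) = 12 :=
  fun c => S36lib.Count.ord_H₂_modX_five_le h5 hqM hA hν2 hν3 (modD1_isGaussOne hqM hA) c

omit C in
/-- **THE TAME `(M′)` AT `q = 3`, `4 ∣ M`**: for `A ∣ 3`, a prime `m ∤ 12` and an inertia-fixed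
`x ∈ J₀(3 M)[m]`, the residue vector of `Ψ x` lies in the Eisenstein subgroup -/
theorem resMap_psi_mem_eisSub_three (hq3 : q = 3) (h4 : 4 ∣ M)
    {m : ℕ} [hm : Fact m.Prime] (h12 : ¬ m ∣ 12)
    {x : JZero (M * q)} (hx : x ∈ tors (M * q) (m : ℤ)) (hfix : ∀ σ ∈ IA A, σ • x = x) :
    resMap (modNod hqM hA) m (psi (modNod hqM hA) m x) ∈ eisSub (modNod hqM hA) m :=
  resMap_psi_mem_eisSub_tameC hqM hA (modCtxG hqM hA (Or.inr (Or.inr ⟨hq3, h4⟩)))
    (ord12_three hqM hA hq3 h4) h12 hx hfix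

end Fermat.Agent.S43lib.B0.Gen
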